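import Fermat.Agent.S27.Grp.Spec

/-!
# Row S27, block GRP, leaf ALG-ASSOC (helper913): associativity of tensor products of gluing data

`tensAssoc : Grp.Stmt.TensAssoc` : if `X = G ⊗ G'`, `Y = X ⊗ G''`, `Z = G' ⊗ G''`, `W = G ⊗ Z`
(in the sense of `S27.IsTensor`), then `Y ≅ W`.

Abstract core (any commutative ring, modules in any universes):

* `assocEquivH913 β γ δ ε` : the associator `Y ≃ₗ W` built from four bilinear maps with bijective
  lifts;
* `assocEquivH913_apply` : it sends `γ (β n n') n''` to `ε n (δ n' n'')`;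
* `triple_inductionH913` : `Y` is additively generated by the elements `γ (β n n') n''`.
-/

set_option autoImplicit false
universe u
open scoped TensorProduct

namespace Fermat.Agent.S27.H913

noncomputable section

section Abs

variable {R : Type*} [CommRing R]
  {N N' N'' X Y Z W : Type*}
  [AddCommGroup N] [Module R N] [AddCommGroup N'] [Module R N'] [AddCommGroup N''] [Module R N'']
  [AddCommGroup X] [Module R X] [AddCommGroup Y] [Module R Y] [AddCommGroup Z] [Module R Z]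
  [AddCommGroup W] [Module R W]

/-- The linear equivalence `N ⊗ N' ≃ X` given by a bilinear map with bijective lift. -/
def liftEquivH913 (β : N →ₗ[R] N' →ₗ[R] X) (hβ : Function.Bijective (TensorProduct.lift β)) :
    N ⊗[R] N' ≃ₗ[R] X :=
  LinearEquiv.ofBijective (TensorProduct.lift β) hβ

@[simp]
theorem liftEquivH913_tmul (β : N →ₗ[R] N' →ₗ[R] X)
    (hβ : Function.Bijective (TensorProduct.lift β)) (n : N) (n' : N') :
    liftEquivH913 β hβ (n ⊗ₜ[R] n') = β n n' := by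
  simp [liftEquivH913]

@[simp]
theorem liftEquivH913_symm_apply (β : N →ₗ[R] N' →ₗ[R] X)
    (hβ : Function.Bijective (TensorProduct.lift β)) (n : N) (n' : N') :
    (liftEquivH913 β hβ).symm (β n n') = n ⊗ₜ[R] n' := by
  rw [LinearEquiv.symm_apply_eq, liftEquivH913_tmul]

/-- The associator: `Y = (N ⊗ N') ⊗ N'' ≃ N ⊗ (N' ⊗ N'') = W`. -/
def assocEquivH913 (β : N →ₗ[R] N' →ₗ[R] X) (γ : X →ₗ[R] N'' →ₗ[R] Y)
    (δ : N' →ₗ[R] N'' →ₗ[R] Z) (ε : N →ₗ[R] Z →ₗ[R] W)
    (hβ : Function.Bijective (TensorProduct.lift β))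
    (hγ : Function.Bijective (TensorProduct.lift γ))
    (hδ : Function.Bijective (TensorProduct.lift δ))
    (hε : Function.Bijective (TensorProduct.lift ε)) : Y ≃ₗ[R] W :=
  (liftEquivH913 γ hγ).symm ≪≫ₗ
    (TensorProduct.congr (liftEquivH913 β hβ).symm (LinearEquiv.refl R N'')) ≪≫ₗ
    TensorProduct.assoc R N N' N'' ≪≫ₗ
    (TensorProduct.congr (LinearEquiv.refl R N) (liftEquivH913 δ hδ)) ≪≫ₗ
    liftEquivH913 ε hε

theorem assocEquivH913_apply (β : N →ₗ[R] N' →ₗ[R] X) (γ : X →ₗ[R] N'' →ₗ[R] Y)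
    (δ : N' →ₗ[R] N'' →ₗ[R] Z) (ε : N →ₗ[R] Z →ₗ[R] W)
    (hβ : Function.Bijective (TensorProduct.lift β))
    (hγ : Function.Bijective (TensorProduct.lift γ))
    (hδ : Function.Bijective (TensorProduct.lift δ))
    (hε : Function.Bijective (TensorProduct.lift ε)) (n : N) (n' : N') (n'' : N'') :
    assocEquivH913 β γ δ ε hβ hγ hδ hε (γ (β n n') n'') = ε n (δ n' n'') := by
  simp [assocEquivH913]

/-- `Y` is additively generated by the elements `γ (β n n') n''`. -/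
theorem triple_inductionH913 (β : N →ₗ[R] N' →ₗ[R] X) (γ : X →ₗ[R] N'' →ₗ[R] Y)
    (hβ : Function.Bijective (TensorProduct.lift β))
    (hγ : Function.Bijective (TensorProduct.lift γ)) {P : Y → Prop} (h0 : P 0)
    (hadd : ∀ a b, P a → P b → P (a + b)) (hgen : ∀ n n' n'', P (γ (β n n') n'')) (y : Y) :
    P y := by
  obtain ⟨t, rfl⟩ := hγ.2 y
  induction t using TensorProduct.induction_on with
  | zero => simpa using h0
  | add a b ha hb => rw [map_add]; exact hadd _ _ ha hb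
  | tmul x n'' =>
    rw [TensorProduct.lift.tmul]
    obtain ⟨s, rfl⟩ := hβ.2 x
    induction s using TensorProduct.induction_on with
    | zero => simpa using h0
    | add a b ha hb => rw [map_add, map_add, LinearMap.add_apply]; exact hadd _ _ ha hb
    | tmul n n' => rw [TensorProduct.lift.tmul]; exact hgen n n' n''

end Abs

open Fermat.Agent.S25 Fermat.Agent.S27

/-- **ALG-ASSOC**: `(G ⊗ G') ⊗ G'' ≅ G ⊗ (G' ⊗ G'')` for gluing data. -/
theorem tensAssoc : Grp.Stmt.TensAssoc.{u} := by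
  intro A R₀ R₁ R₀₁ _ _ _ _ _ _ _ _ _ _ _ G G' G'' X Y Z W h1 h2 h3 h4
  obtain ⟨t1⟩ := h1
  obtain ⟨t2⟩ := h2
  obtain ⟨t3⟩ := h3
  obtain ⟨t4⟩ := h4
  refine ⟨{
    e₀ := assocEquivH913 t1.β₀ t2.β₀ t3.β₀ t4.β₀ t1.bijective₀ t2.bijective₀ t3.bijective₀
      t4.bijective₀
    e₁ := assocEquivH913 t1.β₁ t2.β₁ t3.β₁ t4.β₁ t1.bijective₁ t2.bijective₁ t3.bijective₁
      t4.bijective₁
    e₀₁ := assocEquivH913 t1.β₀₁ t2.β₀₁ t3.β₀₁ t4.β₀₁ t1.bijective₀₁ t2.bijective₀₁
      t3.bijective₀₁ t4.bijective₀₁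
    comm₀ := ?_
    comm₁ := ?_ }⟩
  · intro s
    refine triple_inductionH913 t1.β₀ t2.β₀ t1.bijective₀ t2.bijective₀
      (P := fun s => assocEquivH913 t1.β₀₁ t2.β₀₁ t3.β₀₁ t4.β₀₁ t1.bijective₀₁ t2.bijective₀₁
        t3.bijective₀₁ t4.bijective₀₁ (Y.r₀ s) =
        W.r₀ (assocEquivH913 t1.β₀ t2.β₀ t3.β₀ t4.β₀ t1.bijective₀ t2.bijective₀ t3.bijective₀
          t4.bijective₀ s)) ?_ ?_ ?_ s
    · simp
    · intro a b ha hb
      simp only [map_add, ha, hb]
    · intro n n' n''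
      rw [assocEquivH913_apply, ← t2.comm₀, ← t1.comm₀, assocEquivH913_apply, t3.comm₀,
        t4.comm₀]
  · intro s
    refine triple_inductionH913 t1.β₁ t2.β₁ t1.bijective₁ t2.bijective₁
      (P := fun s => assocEquivH913 t1.β₀₁ t2.β₀₁ t3.β₀₁ t4.β₀₁ t1.bijective₀₁ t2.bijective₀₁
        t3.bijective₀₁ t4.bijective₀₁ (Y.r₁ s) =
        W.r₁ (assocEquivH913 t1.β₁ t2.β₁ t3.β₁ t4.β₁ t1.bijective₁ t2.bijective₁ t3.bijective₁
          t4.bijective₁ s)) ?_ ?_ ?_ s
    · simp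
    · intro a b ha hb
      simp only [map_add, ha, hb]
    · intro n n' n''
      rw [assocEquivH913_apply, ← t2.comm₁, ← t1.comm₁, assocEquivH913_apply, t3.comm₁,
        t4.comm₁]

end

end Fermat.Agent.S27.H913
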